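import Mathlib
import Fermat.Agent.S30.Descent.PhiDictCore
import Fermat.Agent.S48.B.Defs.Spec

/-!
# PROJECT D (S48), part B, block B5, brick C5 (core): `PsiDict1 M → PhiDict1 M ι`, hypotheses-first

Twin of main's `S30/Descent/PhiDictCore.lean`.  The analytic dictionary `Ψ` over `ℂ`
(`Spec.PsiDict1 M`) is transported to the dictionary `Φ = Ψ ∘ ext` on `J₁(M) = Pic⁰(ℚ̄(X₁(M)))`
(`Spec.PhiDict1 M ι`) by the descent `ext : Pic⁰ ℚ̄ F → Pic⁰ ℂ F_ℂ`.

The descent engines of main (`Descent/{LaurentTorsion, Surjective, Injective, RRBaseChange,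
ConstGalois}`) and the sections `AbstractDict` / `Const` of the original are level-free and are
imported, not copied.  The two level-specific inputs are hypotheses, as `def … : Prop`:

* `RepAllFC1 M` : every element of `FC1 M` is a quotient of two forms on `Γ₁(M)`
  (this is `B1.Seams.RepLe M`, only the inclusion `⊆` of main's `RepFieldEq` is used);
* `RootTwist1 M` : the root character of `c · g · hⁿ` is the root character of `g`
  (twin of main's `rootCharOf_const`, `RootCharOf.mul`, `rootCharOf_pow_self` in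
  `S30/Analytic/RepChar`; producer = brick C1 `Dict/RepChar`).
-/

set_option autoImplicit false
set_option linter.unusedSectionVars false
set_option linter.style.haveILetI false

noncomputable section

namespace Fermat.Agent.S48.B.Dict.Descent.PhiDictCore

open AlgebraicCurve ModularCurve IntermediateField CongruenceSubgroup UpperHalfPlane
open scoped MatrixGroups
open Fermat.Agent.S24.FF Fermat.Agent.S30.Analytic.Character
open Fermat.Agent.S30.Descent Fermat.Agent.S30.Descent.ConstGalois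
open Fermat.Agent.S30.Descent.PhiDictCore (finite_torsion_of_dict const_of_ord_eq_zero
  nsmul_mk_eq_zero)
open Fermat.Agent.S48.B.Defs.Model Fermat.Agent.S48.B.Defs.Spec

local notation "Kb" => AlgebraicClosure ℚ

/-! ### the two level-specific inputs -/

section Inputs

variable (M : ℕ) [NeZero M]

/-- every element of `FC1 M` is a quotient of two forms of the same weight on `Γ₁(M)` -/
def RepAllFC1 : Prop :=
  ∀ u : FC1 M, ∃ (k : ℤ) (a b : ℍ → ℂ), IsRepOf1 M (u : LaurentSeries ℂ) k a b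

/-- the root character of `c · g · hⁿ` is the root character of `g` -/
def RootTwist1 : Prop :=
  ∀ (n : ℕ), n ≠ 0 → ∀ (c : ℂ) (g h : LaurentSeries ℂ) (ψ : Gamma1 M →* ℂˣ),
    (∃ (k : ℤ) (a b : ℍ → ℂ), IsRepOf1 M g k a b ∧
      IsRootChar (Gamma1 M) n k (a * b ^ (n - 1)) ψ) →
    (∃ (k : ℤ) (a b : ℍ → ℂ), IsRepOf1 M h k a b) →
    ∃ (k : ℤ) (a b : ℍ → ℂ), IsRepOf1 M (HahnSeries.C c * g * h ^ n) k a b ∧
      IsRootChar (Gamma1 M) n k (a * b ^ (n - 1)) ψ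

end Inputs

/-! ### the core: `IsPhiOf1 M ι y ψ ↔ IsPsiOf1 M (ext y) ψ` -/

section Core

variable (M : ℕ) [NeZero M] [Algebra Kb ℂ] (ι : Kb →+* ℂ) (hι : algebraMap Kb ℂ = ι)
  (hst : Stable Kb (FC1 M))
  (bcH : F1Bar M →+* FC1 M)
  (hbc : ∀ f : F1Bar M, (bcH f : LaurentSeries ℂ) = bc (f : LaurentSeries Kb))
  (e : Place Kb (F1Bar M) → Place ℂ (FC1 M))
  (hp : RRBaseChange.IsPlaceExt bcH e)
  (huniq : ∀ (P : Place Kb (F1Bar M)) (Q : Place ℂ (FC1 M)),
    (∀ f : F1Bar M, Q.ord (bcH f) = P.ord f) → Q = e P)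
  (hcap : ∀ f' : FC1 M,
    (∀ n : ℤ, (f' : LaurentSeries ℂ).coeff n ∈ Set.range (algebraMap Kb ℂ)) → f' ∈ Set.range bcH)
  {x : F1Bar M} (hx : IsFF Kb x) (hx' : IsFF ℂ (bcH x))
  (hn : Module.finrank ℂ⟮bcH x⟯ (FC1 M) = Module.finrank Kb⟮x⟯ (F1Bar M))
  (hrepAll : RepAllFC1 M) (hroot1 : RootTwist1 M)

/-- the extension of constants on `Pic⁰` -/
abbrev extJ1 : J1 M →+ Pic0 ℂ (FC1 M) :=
  Surjective.extPic0 (LaurentTorsion.compat bcH e hp hx hx')

include hι hbc in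
theorem coe_bcH1 (f : F1Bar M) :
    (bcH f : LaurentSeries ℂ) = coeffMap ι (f : LaurentSeries Kb) := by
  rw [hbc, bc, hι]

include hι hbc in
/-- `Φ = Ψ ∘ ext`, first half -/
theorem isPsiOf1_of_isPhiOf1 {y : J1 M} {ψ : Gamma1 M →* ℂˣ} (h : IsPhiOf1 M ι y ψ) :
    IsPsiOf1 M (extJ1 M bcH e hp hx hx' y) ψ := by
  obtain ⟨n, D, f, k, a, b, hn0, hf, rfl, hD, hrep, hroot⟩ := h
  refine ⟨n, Surjective.extDegZero (LaurentTorsion.compat bcH e hp hx hx') D, bcH f, k, a, b, hn0,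
    (map_ne_zero bcH).mpr hf, rfl, fun v => ?_, ?_, hroot⟩
  · have h1 := hp.mapDomain_eq_ord (D := (n : ℤ) • (D : Divisor Kb (F1Bar M))) hf
      (fun P => by rw [Finsupp.smul_apply, smul_eq_mul, hD P]) v
    rw [← h1, Finsupp.mapDomain_smul, Finsupp.smul_apply, smul_eq_mul]
    rfl
  · rw [coe_bcH1 M ι hι bcH hbc]
    exact hrep

include hst hι hbc huniq hcap in
/-- `ext` is injective on `Pic⁰` (T6) -/
theorem extJ1_injective : Function.Injective (extJ1 M bcH e hp hx hx') := by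
  haveI := hx.finite
  haveI := hx'.finite
  have hsep : Algebra.IsSeparable Kb⟮x⟯ (F1Bar M) := LaurentTorsion.isSeparable_of_isFF hx
  have hsep' : Algebra.IsSeparable ℂ⟮bcH x⟯ (FC1 M) := LaurentTorsion.isSeparable_of_isFF hx'
  haveI := Fermat.Agent.S18.A.PrincipalDivisors.hasPrincipalDivisors hx hsep
  haveI := Fermat.Agent.S18.A.PrincipalDivisors.hasPrincipalDivisors hx' hsep'
  obtain ⟨g', HR', -⟩ := Fermat.Agent.S18.A.RiemannX1.exists_riemannHyp_of_sep hx' hsep'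
  exact Injective.extPic0_injective (LaurentTorsion.compat bcH e hp hx hx') hp
    (LaurentTorsion.isGaloisCoord hst bcH hbc e hp huniq hcap)
    (fun P => Fermat.Agent.S18.A.Instances.deg_one hx P) (fun _ => HR'.finite _)

include hst hι hbc huniq hcap hrepAll hroot1 in
/-- `Φ = Ψ ∘ ext`, second half: the character does not depend on the representation. -/
theorem isPhiOf1_of_isPsiOf1 {y : J1 M} {ψ : Gamma1 M →* ℂˣ}
    (h : IsPsiOf1 M (extJ1 M bcH e hp hx hx' y) ψ) : IsPhiOf1 M ι y ψ := by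
  obtain ⟨n, D', f', k, a, b, hn0, hf', hE, hD', hrep, hroot⟩ := h
  obtain ⟨D, rfl⟩ := Pic0.mk_surjective y
  have hcompat := LaurentTorsion.compat bcH e hp hx hx'
  -- `n • mk D = 0`
  have h1 : n • extJ1 M bcH e hp hx hx' (Pic0.mk D) = 0 := by
    rw [hE]
    exact nsmul_mk_eq_zero hf' hD'
  rw [← map_nsmul] at h1
  have h2 : n • Pic0.mk D = 0 :=
    extJ1_injective M ι hι hst bcH hbc e hp huniq hcap hx hx' (h1.trans (map_zero _).symm)
  have h3 : Pic0.mk (n • D) = 0 := h2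
  obtain ⟨f, hf, hDf⟩ := Surjective.mk_eq_zero_iff.mp h3
  -- `D' - ext D = div h'`
  have h4 : Pic0.mk (Surjective.extDegZero hcompat D) = Pic0.mk D' := hE
  obtain ⟨h', hh', hDh⟩ := Surjective.mk_eq_mk_iff.mp h4
  -- the orders of `bcH f`
  have hordf : ∀ v : Place ℂ (FC1 M), v.ord (bcH f) =
      (n : ℤ) * (Finsupp.mapDomain e (D : Divisor Kb (F1Bar M)) : Divisor ℂ (FC1 M)) v := by
    intro v
    have h5 := hp.mapDomain_eq_ord
      (D := ((n • D : Divisor.degZero (K := Kb) (F := F1Bar M)) : Divisor Kb (F1Bar M))) hf hDf v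
    rw [← h5, AddSubgroup.coe_nsmul, Finsupp.mapDomain_smul, Finsupp.smul_apply, nsmul_eq_mul]
  -- `u = bcH f / (f' h'^n)` is constant
  have hbf : bcH f ≠ 0 := (map_ne_zero bcH).mpr hf
  have hu0 : bcH f * f'⁻¹ * (h' ^ n) ≠ 0 :=
    mul_ne_zero (mul_ne_zero hbf (inv_ne_zero hf')) (pow_ne_zero n hh')
  have hu : ∀ v : Place ℂ (FC1 M), v.ord (bcH f * f'⁻¹ * (h' ^ n)) = 0 := by
    intro v
    rw [v.ord_mul (mul_ne_zero hbf (inv_ne_zero hf')) (pow_ne_zero n hh'),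
      v.ord_mul hbf (inv_ne_zero hf'), v.ord_inv, ← zpow_natCast, v.ord_zpow, hordf v, ← hD' v,
      ← hDh v]
    simp only [Finsupp.sub_apply, Surjective.coe_extDegZero, Surjective.extDiv_apply]
    ring
  obtain ⟨c, hc⟩ := const_of_ord_eq_zero hx' _ hu0 hu
  -- `bcH f = c * f' * (h'⁻¹)^n`
  have hfe : bcH f = algebraMap ℂ (FC1 M) c * f' * (h'⁻¹) ^ n := by
    rw [← hc, inv_pow]
    field_simp
  have hfe' : (bcH f : LaurentSeries ℂ) =
      HahnSeries.C c * (f' : LaurentSeries ℂ) * ((h'⁻¹ : FC1 M) : LaurentSeries ℂ) ^ n := by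
    rw [hfe]
    push_cast
    congr 2
    show algebraMap ℂ (LaurentSeries ℂ) c = HahnSeries.C c
    rw [algebraMap_laurentSeries_eq_single]
    rfl
  obtain ⟨k₂, a₂, b₂, hrep₂, hroot₂⟩ :=
    hroot1 n hn0 c (f' : LaurentSeries ℂ) ((h'⁻¹ : FC1 M) : LaurentSeries ℂ) ψ
      ⟨k, a, b, hrep, hroot⟩ (hrepAll (h'⁻¹ : FC1 M))
  rw [← hfe'] at hrep₂
  refine ⟨n, D, f, k₂, a₂, b₂, hn0, hf, rfl, fun v => ?_, ?_, hroot₂⟩
  · rw [← hDf v, AddSubgroup.coe_nsmul, Finsupp.smul_apply, nsmul_eq_mul]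
  · rw [← coe_bcH1 M ι hι bcH hbc]
    exact hrep₂

/-- the relation `IsPsiOf1` implies torsion -/
theorem nsmul_eq_zero_of_isPsiOf1 {z : Pic0 ℂ (FC1 M)} {ψ : Gamma1 M →* ℂˣ}
    (h : IsPsiOf1 M z ψ) : ∃ n : ℕ, n ≠ 0 ∧ n • z = 0 := by
  obtain ⟨n, D, f, k, a, b, hn0, hf, rfl, hD, -, -⟩ := h
  exact ⟨n, hn0, nsmul_mk_eq_zero hf hD⟩

/-- **finiteness of the `n`-torsion of `Pic⁰(X₁(M)_ℂ)`** from the analytic dictionary; the only
group-theoretic input is that `Γ₁(M)` is finitely generated. -/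
theorem finite_torsion_C1 [Group.FG (Gamma1 M)] (h : PsiDict1 M) {n : ℕ} (hn0 : n ≠ 0) :
    Finite (Pic0.torsion ℂ (FC1 M) n) := by
  have h1 : {z : Pic0 ℂ (FC1 M) | n • z = 0}.Finite :=
    finite_torsion_of_dict (IsPsiOf1 M) h.exists_of_torsion h.unique h.add h.injective hn0
  refine Set.Finite.subset h1 (s := {z : Pic0 ℂ (FC1 M) | n • z = 0})
    (t := ((Pic0.torsion ℂ (FC1 M) n : AddSubgroup (Pic0 ℂ (FC1 M))) :
      Set (Pic0 ℂ (FC1 M)))) ?_
  intro z hz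
  have h2 : (n : ℤ) • z = 0 := Pic0.mem_torsion.mp hz
  rwa [natCast_zsmul] at h2

include hst hι hbc hp huniq hcap hx hx' hn hrepAll hroot1 in
/-- **`PsiDict1 M → PhiDict1 M ι`** (core form) -/
theorem phiDict1_core [Group.FG (Gamma1 M)] (h : PsiDict1 M) : PhiDict1 M ι := by
  have hab : ∀ {y : J1 M} {ψ : Gamma1 M →* ℂˣ}, IsPhiOf1 M ι y ψ →
      IsPsiOf1 M (extJ1 M bcH e hp hx hx' y) ψ :=
    fun hy => isPsiOf1_of_isPhiOf1 M ι hι bcH hbc e hp hx hx' hy
  have hba : ∀ {y : J1 M} {ψ : Gamma1 M →* ℂˣ}, IsPsiOf1 M (extJ1 M bcH e hp hx hx' y) ψ →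
      IsPhiOf1 M ι y ψ :=
    fun hy => isPhiOf1_of_isPsiOf1 M ι hι hst bcH hbc e hp huniq hcap hx hx' hrepAll hroot1 hy
  refine ⟨?_, ?_, ?_, ?_, ?_, ?_⟩
  · rintro y ⟨n, hn0, hy⟩
    obtain ⟨ψ, hψ⟩ := h.exists_of_torsion (extJ1 M bcH e hp hx hx' y)
      ⟨n, hn0, by rw [← map_nsmul, hy, map_zero]⟩
    exact ⟨ψ, hba hψ⟩
  · intro y ψ ψ' hy hy'
    exact h.unique _ _ _ (hab hy) (hab hy')
  · intro y y' ψ ψ' hy hy'
    apply hba
    rw [map_add]
    exact h.add _ _ _ _ (hab hy) (hab hy')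
  · intro y hy
    have h1 := h.injective _ (hab hy)
    exact extJ1_injective M ι hι hst bcH hbc e hp huniq hcap hx hx' (h1.trans (map_zero _).symm)
  · intro y ψ hy
    exact h.mem _ _ (hab hy)
  · intro ψ hψ hfin
    obtain ⟨z, hz⟩ := h.surj ψ hψ hfin
    obtain ⟨n, hn0, hnz⟩ := nsmul_eq_zero_of_isPsiOf1 M hz
    haveI := finite_torsion_C1 M h hn0
    have hzt : z ∈ Pic0.torsion ℂ (FC1 M) n := by
      rw [Pic0.mem_torsion, natCast_zsmul]
      exact hnz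
    obtain ⟨c, hc⟩ :=
      (LaurentTorsion.extTorsion_bijective hst bcH hbc e hp huniq hcap hx hx' hn n).2 ⟨z, hzt⟩
    refine ⟨(c : J1 M), hba ?_⟩
    have h1 : extJ1 M bcH e hp hx hx' (c : J1 M) = z := congrArg Subtype.val hc
    rw [h1]
    exact hz

end Core

end Fermat.Agent.S48.B.Dict.Descent.PhiDictCore

end
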