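import Mathlib
import Fermat.Agent.S22.Gamma0FG
import Fermat.Agent.S30.Descent.PhiDictFinal
import Fermat.Agent.S48.B.B1.Seams
import Fermat.Agent.S48.B.Dict.Descent.PhiDictCore

/-!
# PROJECT D (S48), part B, block B5, brick C5 (final): `PsiDict1 M → PhiDict1 M ι`

Twin of main's `S30/Descent/PhiDictFinal.lean` + `PhiDictThm.lean`.  Main's `exists_package`
(the Laurent-model package for `K ⊆ K'` algebraically closed, `F' = constExt K' F`) is generic and
is imported; `ConstExt.constExt_laurentBaseChange` is generic in `F₀` and is applied to `F1 M`.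

* `fg_Gamma1 M : Group.FG (Gamma1 M)` (Schreier, from main's `Group.FG SL(2, ℤ)`);
* `isRepOf1_spec_of_seams` / `repAllFC1_of_repLe : B1.Seams.RepLe M → RepAllFC1 M`
  (the two copies `Spec.IsRepOf1`, `B1.Seams.IsRepOf1` of the same structure are identified);
* `phiDict1 M ι hx hrepAll hroot1 : Spec.PsiDict1 M → Spec.PhiDict1 M ι`, for `hx : IsFF ℚ̄ x`
  any separating element of `F1Bar M`;
* `phiDict1_of_seams` : the same from `B1.Seams.Deg1 M` and `B1.Seams.RepLe M`.
-/

set_option autoImplicit false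
set_option linter.unusedSectionVars false
set_option linter.style.haveILetI false

noncomputable section

namespace Fermat.Agent.S48.B.Dict.Descent.PhiDictFinal

open AlgebraicCurve ModularCurve IntermediateField CongruenceSubgroup UpperHalfPlane
open scoped MatrixGroups
open Fermat.Agent.S24.FF
open Fermat.Agent.S30.Descent Fermat.Agent.S30.Descent.ConstGalois
open Fermat.Agent.S30.Descent.PhiDictFinal (exists_package)
open Fermat.Agent.S48.B.Defs.Model Fermat.Agent.S48.B.Defs.Spec
open Fermat.Agent.S48.B.Dict.Descent.PhiDictCore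

local notation "Kb" => AlgebraicClosure ℚ

variable (M : ℕ) [NeZero M]

/-- `Γ₁(M)` is a finitely generated group (Schreier). -/
theorem fg_Gamma1 : Group.FG (Gamma1 M) :=
  Subgroup.fg_of_index_ne_zero (Gamma1 M)

variable {M} in
/-- the two copies of the structure "`(a, b)` represents `g` at level `Γ₁(M)`" agree -/
theorem isRepOf1_spec_of_seams {g : LaurentSeries ℂ} {k : ℤ} {a b : ℍ → ℂ}
    (h : Fermat.Agent.S48.B.B1.Seams.IsRepOf1 M g k a b) : IsRepOf1 M g k a b :=
  ⟨h.ha, h.hb, h.hb0, h.eq⟩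

variable {M} in
theorem isRepOf1_seams_of_spec {g : LaurentSeries ℂ} {k : ℤ} {a b : ℍ → ℂ}
    (h : IsRepOf1 M g k a b) : Fermat.Agent.S48.B.B1.Seams.IsRepOf1 M g k a b :=
  ⟨h.ha, h.hb, h.hb0, h.eq⟩

/-- `[Rep-b]` gives the first level-specific input of the core. -/
theorem repAllFC1_of_repLe (h : Fermat.Agent.S48.B.B1.Seams.RepLe M) : RepAllFC1 M := by
  intro u
  obtain ⟨k, a, b, hr⟩ := h u.2
  exact ⟨k, a, b, isRepOf1_spec_of_seams hr⟩

/-- **`PsiDict1 M → PhiDict1 M ι`**: the analytic dictionary over `ℂ` descends to `J₁(M)`. -/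
theorem phiDict1 (ι : Kb →+* ℂ) {x : F1Bar M} (hx : IsFF Kb x)
    (hrepAll : RepAllFC1 M) (hroot1 : RootTwist1 M) (h : PsiDict1 M) : PhiDict1 M ι := by
  letI : Algebra Kb ℂ := ι.toAlgebra
  haveI := fg_Gamma1 M
  obtain ⟨bcH, e, hst, hbc, hp, hcap, hx', hn⟩ := exists_package (K' := ℂ) hx (FC1 M)
    (ConstExt.constExt_laurentBaseChange (K := Kb) (K' := ℂ) (F1 M))
  exact phiDict1_core M ι rfl hst bcH hbc e hp
    (GaloisCoordLaurent.uniq_of_isPlaceExt hp) hcap hx hx' hn hrepAll hroot1 h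

/-- **`PsiDict1 M → PhiDict1 M ι`** from the seams of block B1. -/
theorem phiDict1_of_seams (ι : Kb →+* ℂ) (hdeg : Fermat.Agent.S48.B.B1.Seams.Deg1 M)
    (hrep : Fermat.Agent.S48.B.B1.Seams.RepLe M) (hroot1 : RootTwist1 M) (h : PsiDict1 M) :
    PhiDict1 M ι :=
  phiDict1 M ι hdeg.1 (repAllFC1_of_repLe M hrep) hroot1 h

end Fermat.Agent.S48.B.Dict.Descent.PhiDictFinal

end
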