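import Mathlib
import Fermat.Agent.S48.B.Dict.RepChar
import Fermat.Agent.S48.B.Dict.Descent.PhiDictFinal

/-!
# PROJECT D (S48), part B, block B5, brick C5 (closing): `RootTwist1 M` is a theorem

`PhiDictCore.RootTwist1 M` (the root character of `c · g · hⁿ` is the root character of `g`) from
brick C1a `Dict/RepChar` (`rootCharOf1_const`, `RootCharOf1.mul`, `rootCharOf1_pow_self`), through
the identification of the two copies `Spec.IsRepOf1` / `B1.Seams.IsRepOf1`.  Hence

`phiDict1_of_deg_repLe : B1.Seams.Deg1 M → B1.Seams.RepLe M → Spec.PsiDict1 M → Spec.PhiDict1 M ι`.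
-/

set_option autoImplicit false

noncomputable section

namespace Fermat.Agent.S48.B.Dict.Descent.RootTwist

open UpperHalfPlane CongruenceSubgroup
open scoped MatrixGroups
open Fermat.Agent.S48.B.Defs.Spec Fermat.Agent.S48.B.Dict.RepChar
open Fermat.Agent.S48.B.Dict.Descent.PhiDictCore Fermat.Agent.S48.B.Dict.Descent.PhiDictFinal

local notation "Kb" => AlgebraicClosure ℚ

variable (M : ℕ) [NeZero M]

/-- **`RootTwist1 M`**, from the algebra of root characters of brick C1a. -/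
theorem rootTwist1 : RootTwist1 M := by
  rintro n hn c g h ψ ⟨k, a, b, hrep, hroot⟩ ⟨k', a', b', hrep'⟩
  have h1 : RootCharOf1 M n g ψ := ⟨k, a, b, isRepOf1_seams_of_spec hrep, hroot⟩
  have h2 : Fermat.Agent.S48.B.B1.Seams.IsRepC1 M h := ⟨k', a', b', isRepOf1_seams_of_spec hrep'⟩
  have h6 := ((rootCharOf1_const (M := M) hn c).mul h1).mul (rootCharOf1_pow_self hn h2)
  have e1 : (1 : Gamma1 M →* ℂˣ) * ψ * 1 = ψ := (mul_one _).trans (one_mul ψ)
  rw [e1] at h6
  obtain ⟨k₂, a₂, b₂, hrep₂, hroot₂⟩ := h6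
  exact ⟨k₂, a₂, b₂, isRepOf1_spec_of_seams hrep₂, hroot₂⟩

/-- **`PsiDict1 M → PhiDict1 M ι`** from the two seams `Deg1 M`, `RepLe M` of block B1. -/
theorem phiDict1_of_deg_repLe (ι : Kb →+* ℂ) (hdeg : Fermat.Agent.S48.B.B1.Seams.Deg1 M)
    (hrep : Fermat.Agent.S48.B.B1.Seams.RepLe M) (h : PsiDict1 M) : PhiDict1 M ι :=
  phiDict1_of_seams M ι hdeg hrep (rootTwist1 M) h

end Fermat.Agent.S48.B.Dict.Descent.RootTwist

end
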